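import Mathlib
import Fermat.Agent.LT.T7.H298.MatchQCut
import Fermat.Agent.LT.T7.H584.NormLocClosed

/-!
# Row LT, tower T7, node Q2.7 `CutIntQC298`, leaf Q2.7.12 `NonNormLocQC298` (helper984)

OFF-MAIN (registry row 2672).  No hole, nothing assumed.

    nonNormLocQC984 (F) : MQ298.NonNormLocQC298 F

VERBATIM vs `LT/T7/H298/MatchQCut.lean` (helper298@076793e90, sha256 74dc2a3c).

Proof.  Contrapositive of `T6.NormImageQC` (a component of `T6.T6Out`).  Assume that `γ` is a
local norm for every local datum at every finite place with one place over it, and a norm from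
`GL₂(ℂ)` at the real place.
* Finite places: as in the closed cubic leaf (`H584.nonNormLoc_of584`): `H768.splitOrUniqueC768`;
  one place over `v`: `T6.InstExtC` gives a local datum, `H584.tensorFieldC584` transports the
  norm to `F ⊗ ℚ_v`; a split place: `T6.InstSplitC` and `H122.tensorSplitC122`.
* The real place (NEW): `H584.tensorFieldC584` for `k = ℚ_∞`, `k' = ℂ`,
  `i = (ℝ → ℂ) ∘ (ℚ_∞ ≅ ℝ)`, `j` an embedding of `F` in `ℂ`, `s_w` the complex conjugation.
  `(ℂ, conj)` is a cyclic datum of degree `2` over `ℚ_∞` (`i` is onto `ℝ`: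
  `surjective_extensionEmbeddingOfIsReal`); `conj ∘ j = j ∘ s` because `F` is Galois over `ℚ`
  with group `{1, s}` and `j` is not real (`F` is totally complex).
-/

set_option autoImplicit false
set_option linter.style.haveILetI false
set_option linter.unusedSectionVars false

open IsDedekindDomain NumberField
open scoped ComplexConjugate

noncomputable section

namespace Fermat.Agent.LT.T7.H984

open Fermat.Agent.LT.H556.A0 Fermat.Agent.LT.T7

/-! ## 1. The complex conjugation as a cyclic datum -/

/-- `(ℂ, conj)` is a cyclic datum of degree `2` over any field `k` with a surjective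
homomorphism to `ℝ`. -/
theorem cyclicData_conj984 {k : Type} [Field k] (e : k →+* ℝ) (he : Function.Surjective e) :
    T6.IsCyclicData k ℂ 2 ((algebraMap ℝ ℂ).comp e) (starRingAut : ℂ ≃+* ℂ) where
  pos := by norm_num
  fix_i := fun x => by
    change (starRingEnd ℂ) ((e x : ℝ) : ℂ) = ((e x : ℝ) : ℂ)
    exact Complex.conj_ofReal _
  fixed := fun y hy => by
    have hy' : (starRingEnd ℂ) y = y := hy
    obtain ⟨r, hr⟩ := Complex.conj_eq_iff_real.1 hy'
    obtain ⟨x, hx⟩ := he r
    refine ⟨x, ?_⟩
    change ((e x : ℝ) : ℂ) = y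
    rw [hx, hr]
  order := fun y => by
    change (starRingEnd ℂ) ((starRingEnd ℂ) y) = y
    exact Complex.conj_conj y
  faithful := fun m hm hm2 => by
    have h1 : m = 1 := by omega
    subst h1
    refine ⟨Complex.I, ?_⟩
    rw [pow_one]
    change (starRingEnd ℂ) Complex.I ≠ Complex.I
    rw [Complex.conj_I]
    intro h
    have := congrArg Complex.im h
    simp at this
    norm_num at this

/-! ## 2. The conjugation on a non-real embedding of a quadratic Galois extension of `ℚ` -/

section Conj

variable {F : Type} [Field F] [NumberField F]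

/-- `F/ℚ` Galois of degree `2` with group generated by `s`, `j` a non-real embedding:
`conj ∘ j = j ∘ s`. -/
theorem conj_embedding984 [IsGalois ℚ F] (s : F ≃ₐ[ℚ] F)
    (hgen : ∀ t : F ≃ₐ[ℚ] F, t ∈ Subgroup.zpowers s) (hdeg : Module.finrank ℚ F = 2)
    (j : F →+* ℂ) (hj : ¬ ComplexEmbedding.IsReal j) (y : F) :
    (starRingAut : ℂ ≃+* ℂ) (j y) = j (s y) := by
  have hcard : Nat.card (F ≃ₐ[ℚ] F) = 2 := by
    rw [IsGalois.card_aut_eq_finrank, hdeg]
  have hs2 : s ^ 2 = 1 := by
    have h := orderOf_dvd_natCard s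
    rw [hcard] at h
    exact orderOf_dvd_iff_pow_eq_one.1 h
  obtain ⟨σ, hσ⟩ := ComplexEmbedding.exists_comp_symm_eq_of_comp_eq (k := ℚ) j
    (ComplexEmbedding.conjugate j) (Subsingleton.elim _ _)
  obtain ⟨n, hn⟩ := Subgroup.mem_zpowers_iff.1 (hgen σ.symm)
  have hval : ∀ z : F, j (σ.symm z) = (starRingEnd ℂ) (j z) := fun z => by
    have := congrArg (fun f : F →+* ℂ => f z) hσ
    simpa [ComplexEmbedding.conjugate_coe_eq] using this
  rcases Int.even_or_odd n with ⟨m, hm⟩ | ⟨m, hm⟩
  · exfalso
    apply hj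
    have h1 : σ.symm = 1 := by
      rw [← hn, hm, ← two_mul, zpow_mul, zpow_ofNat, hs2, one_zpow]
    rw [ComplexEmbedding.isReal_iff]
    ext z
    rw [ComplexEmbedding.conjugate_coe_eq, ← hval z, h1]
    rfl
  · have h1 : σ.symm = s := by
      rw [← hn, hm, zpow_add, zpow_mul, zpow_ofNat, hs2, one_zpow, one_mul, zpow_one]
    change (starRingEnd ℂ) (j y) = j (s y)
    rw [← hval y, h1]

end Conj

/-! ## 3. The real place -/

section RealPlace

variable {K K' : Type} [Field K] [NumberField K] [Field K'] [NumberField K'] [Algebra K K']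

/-- **The bridge at a real place.**  `K'/K` of degree `2` with the non-trivial automorphism `s`,
`w` a real place of `K`, `j` an embedding of `K'` in `ℂ` over `w` with `conj ∘ j = j ∘ s`.  If the
image of `γ` in `GL₂(ℝ)` is a norm from `GL₂(ℂ)` then `γ` is a norm at `w` in the sense of
`T6.IsLocNormInf`. -/
theorem locNormInf_of_real984 (s : K' ≃ₐ[K] K') (hdeg : Module.finrank K K' = 2)
    (hs : ∃ x : K', s x ≠ x) (w : InfinitePlace K) (hw : w.IsReal) (j : K' →+* ℂ)
    (hj : ∀ x : K, ((InfinitePlace.Completion.extensionEmbeddingOfIsReal hw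
        (algebraMap K w.Completion x) : ℝ) : ℂ) = j (algebraMap K K' x))
    (hconj : ∀ y : K', (starRingAut : ℂ ≃+* ℂ) (j y) = j (s y))
    (γ : GL (Fin 2) K)
    (h : T6.IsNormFrom 2 (algebraMap ℝ ℂ) (starRingAut : ℂ ≃+* ℂ)
      (Matrix.GeneralLinearGroup.map
        ((InfinitePlace.Completion.extensionEmbeddingOfIsReal hw).comp
          (algebraMap K w.Completion)) γ)) :
    T6.IsLocNormInf s 2 w γ := by
  have hcyc := cyclicData_conj984 (InfinitePlace.Completion.extensionEmbeddingOfIsReal hw)
    (InfinitePlace.Completion.surjective_extensionEmbeddingOfIsReal hw)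
  have hnorm : T6.IsNormFrom 2
      ((algebraMap ℝ ℂ).comp (InfinitePlace.Completion.extensionEmbeddingOfIsReal hw))
      (starRingAut : ℂ ≃+* ℂ)
      (Matrix.GeneralLinearGroup.map (algebraMap K w.Completion) γ) := by
    obtain ⟨δ, hδ⟩ := h
    refine ⟨δ, ?_⟩
    have e : Matrix.GeneralLinearGroup.map
          ((algebraMap ℝ ℂ).comp (InfinitePlace.Completion.extensionEmbeddingOfIsReal hw))
          (Matrix.GeneralLinearGroup.map (algebraMap K w.Completion) γ)
        = Matrix.GeneralLinearGroup.map (algebraMap ℝ ℂ)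
          (Matrix.GeneralLinearGroup.map
            ((InfinitePlace.Completion.extensionEmbeddingOfIsReal hw).comp
              (algebraMap K w.Completion)) γ) := by
      apply Units.ext
      ext a b
      rfl
    rw [e]
    exact hδ
  obtain ⟨δ, hδ⟩ := H584.tensorFieldC584 K K' w.Completion ℂ s 2 Nat.prime_two hdeg hs
    ((algebraMap ℝ ℂ).comp (InfinitePlace.Completion.extensionEmbeddingOfIsReal hw)) j
    (starRingAut : ℂ ≃+* ℂ) (fun x => hj x) hconj hcyc
    (Matrix.GeneralLinearGroup.map (algebraMap K w.Completion) γ) hnorm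
  exact ⟨δ, hδ⟩

end RealPlace

/-! ## 4. Places over a place -/

section Places

variable {K K' : Type} [Field K] [NumberField K] [Field K'] [NumberField K'] [Algebra K K']

/-- `PlaceOver` in the form of the hypotheses of `T6.InstExtC`. -/
theorem placeOver_mem_iff984 {v : HeightOneSpectrum (𝓞 K)} {w : HeightOneSpectrum (𝓞 K')}
    (h : PlaceOver K K' v w) (x : 𝓞 K) :
    x ∈ v.asIdeal ↔ algebraMap (𝓞 K) (𝓞 K') x ∈ w.asIdeal :=
  h x (algebraMap (𝓞 K) (𝓞 K') x) rfl

/-- A place of `K'` whose contraction contains `v` lies over `v` (`v` is maximal). -/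
theorem placeOver_of_le984 {v : HeightOneSpectrum (𝓞 K)} {w : HeightOneSpectrum (𝓞 K')}
    (h : ∀ x : 𝓞 K, x ∈ v.asIdeal → algebraMap (𝓞 K) (𝓞 K') x ∈ w.asIdeal) :
    PlaceOver K K' v w := by
  rw [H557.placeOver_iff_557]
  haveI := w.isPrime
  have hle : v.asIdeal ≤ Ideal.comap (algebraMap (𝓞 K) (𝓞 K')) w.asIdeal := fun x hx =>
    Ideal.mem_comap.2 (h x hx)
  have hprime : (Ideal.comap (algebraMap (𝓞 K) (𝓞 K')) w.asIdeal).IsPrime :=
    Ideal.comap_isPrime _ _
  exact v.isMaximal.eq_of_le hprime.ne_top hle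

end Places

/-! ## 5. The leaf -/

section Leaf

variable (F : Type) [Field F] [NumberField F]

/-- **LEAF Q2.7.12 = NON-NORM-LOC over `ℚ`** (VERBATIM `MQ298.NonNormLocQC298`). -/
theorem nonNormLocQC984 : MQ298.NonNormLocQC298 F := by
  intro hT6 hIQ hS3 D hD hc hl2 γ hγ hnn
  by_contra hcon
  rw [not_or] at hcon
  obtain ⟨hfin, hinf⟩ := hcon
  have hre := not_not.1 hinf
  apply hnn
  have hNI : T6.NormImageQC := hT6.2.2.2.2.1
  have hIE : T6.InstExtC := hT6.2.2.2.2.2.2.1
  have hIS : T6.InstSplitC := hT6.2.2.2.2.2.2.2.1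
  haveI := hc.galois
  set s : F ≃ₐ[ℚ] F := H584.algAut584 D hD with hs
  have hgen := H584.algAut_gen584 D hD hc
  have hdeg2 : Module.finrank ℚ F = 2 := by rw [hc.degree, hl2]
  have hprime : (Module.finrank ℚ F).Prime := by rw [hc.degree]; exact hc.prime
  have hne : ∃ x : F, s x ≠ x := H584.algAut_ne_one584 D hD hc.prime.one_lt
  -- `γ` is a norm at every finite place
  have hloc : ∀ v : HeightOneSpectrum (𝓞 ℚ), T6.IsLocNormFin s 2 v γ := by
    intro v
    rw [← hl2]
    rcases H768.splitOrUniqueC768 ℚ F D.l hc v with ⟨w, hvw, huniq⟩ | ⟨w, hw1, hw2, hw3⟩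
    · obtain ⟨e, i, sw, hi, hsw, hext, _⟩ :=
        hIE ℚ F s hgen hprime v w (placeOver_mem_iff984 hvw)
          (fun w' hw' => huniq w' (placeOver_of_le984 hw'))
      have hext' : T6.IsLocalExt (v.adicCompletion ℚ) (w.adicCompletion F) D.l e i sw := by
        have hdeg := hc.degree
        rw [hdeg] at hext
        exact hext
      have hnorm : T6.IsNormFrom D.l i sw (H305.locG305 v γ) := by
        by_contra hno
        exact hfin ⟨v, w, e, i, sw, hvw, huniq, hi, fun y => hsw y, hext', hno⟩
      obtain ⟨δ, hδ⟩ := H584.tensorFieldC584 ℚ F (v.adicCompletion ℚ) (w.adicCompletion F) s D.l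
        hc.prime hc.degree hne i (algebraMap F (w.adicCompletion F)) sw hi (fun y => hsw y)
        hext'.cyc (Matrix.GeneralLinearGroup.map (algebraMap ℚ (v.adicCompletion ℚ)) γ) hnorm
      exact ⟨δ, hδ⟩
    · obtain ⟨i, hi, _⟩ := hIS ℚ F v w hw1 hw2 hw3
      let τ : F →ₐ[ℚ] v.adicCompletion ℚ :=
        { toRingHom := (i.symm : w.adicCompletion F →+* v.adicCompletion ℚ).comp
            (algebraMap F (w.adicCompletion F))
          commutes' := fun x => by
            change i.symm (algebraMap F (w.adicCompletion F) (algebraMap ℚ F x))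
              = algebraMap ℚ (v.adicCompletion ℚ) x
            rw [← hi x]
            exact i.symm_apply_apply _ }
      obtain ⟨δ, hδ⟩ := H122.tensorSplitC122 ℚ F (v.adicCompletion ℚ) s D.l hc.degree hgen τ
        (Matrix.GeneralLinearGroup.map (algebraMap ℚ (v.adicCompletion ℚ)) γ)
      refine ⟨δ, ?_⟩
      have : T6.twNorm (T6.locAutFin s v) D.l δ
          = Matrix.GeneralLinearGroup.map
            ((Algebra.TensorProduct.includeRight :
                v.adicCompletion ℚ →ₐ[ℚ] T6.locAlgFin ℚ F v)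
              : v.adicCompletion ℚ →+* T6.locAlgFin ℚ F v)
            (Matrix.GeneralLinearGroup.map (algebraMap ℚ (v.adicCompletion ℚ)) γ) := hδ
      rw [this]
  -- `γ` is a norm at the real place
  have hlocInf : ∀ w : InfinitePlace ℚ, T6.IsLocNormInf s 2 w γ := by
    intro w
    obtain rfl : w = Rat.infinitePlace := Subsingleton.elim _ _
    obtain ⟨w', -⟩ : ∃ w' : InfinitePlace F, True := by
      have hcard : Nat.card (InfinitePlace F) = 1 := hIQ.1
      have : Nonempty (InfinitePlace F) := by
        by_contra hemp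
        rw [not_nonempty_iff] at hemp
        rw [Nat.card_of_isEmpty] at hcard
        exact absurd hcard (by norm_num)
      exact ⟨this.some, trivial⟩
    have hw' : w'.IsComplex := hIQ.2 w'
    have hj : ¬ ComplexEmbedding.IsReal w'.embedding := InfinitePlace.isComplex_iff.1 hw'
    refine locNormInf_of_real984 s hdeg2 hne Rat.infinitePlace Rat.isReal_infinitePlace
      w'.embedding (fun x => ?_) (conj_embedding984 s hgen hdeg2 w'.embedding hj) γ ?_
    · rw [eq_ratCast, eq_ratCast, map_ratCast, map_ratCast]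
      simp
    · have e : Matrix.GeneralLinearGroup.map
            ((InfinitePlace.Completion.extensionEmbeddingOfIsReal Rat.isReal_infinitePlace).comp
              (algebraMap ℚ (Rat.infinitePlace).Completion)) γ
          = MQ298.reGLQ298 (T5.ratG γ) := by
        apply Units.ext
        ext a b
        change ((InfinitePlace.Completion.extensionEmbeddingOfIsReal
            Rat.isReal_infinitePlace).comp (algebraMap ℚ (Rat.infinitePlace).Completion))
            ((γ : Matrix (Fin 2) (Fin 2) ℚ) a b)
          = (MQ298.reHomQ298.comp (algebraMap ℚ (Adl ℚ))) ((γ : Matrix (Fin 2) (Fin 2) ℚ) a b)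
        rw [Subsingleton.elim ((InfinitePlace.Completion.extensionEmbeddingOfIsReal
            Rat.isReal_infinitePlace).comp (algebraMap ℚ (Rat.infinitePlace).Completion))
          (MQ298.reHomQ298.comp (algebraMap ℚ (Adl ℚ)))]
      rw [e]
      exact hre
  -- the local-global principle
  obtain ⟨δ, hδ⟩ := hNI F s hgen hdeg2 (by
    obtain ⟨z, hz⟩ := hS3
    exact ⟨z, by rw [pow_two]; exact hz⟩) γ hγ hloc hlocInf
  refine ⟨δ, ?_⟩
  change IsConj (D.s.normUpTo D.l δ) (Matrix.GeneralLinearGroup.map (algebraMap ℚ F) γ)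
  rw [← H584.twNorm_eq_normUpTo584, hl2]
  have e : ((s : F ≃ₐ[ℚ] F) : F ≃+* F) = D.s.σ := H584.algAut_coe584 D hD
  rw [← e]
  exact hδ

/-- Check: the statement is the Prop of the Spec. -/
example : MQ298.NonNormLocQC298 F := nonNormLocQC984 F

end Leaf

end Fermat.Agent.LT.T7.H984

end
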