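import Fermat.Agent.LT.T7.H776.WBasisSpec
import Fermat.Agent.LT.T7.H863.WSub

/-!
# Row LT, tower T7, leaf T7.L2.3.5.4.B3 `WB776.FinAvgMeanC776` (registry row 2391, helper984)

PROVED, verbatim the Prop of `LT/T7/H776/WBasisSpec.lean` (helper776, sha256 ebd5d61e):
`H193.finAvg Rep` preserves the eigenfunctions of the sphere means (continuous `ψ`).

The members of `Rep` are trivial at every infinite place (`IsFinData.mem`: product of an Iwahori
element of the orbit and an element of the level group), hence commute with the points `Y α β` of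
a sphere (supported at one infinite place); so every right translate `g ↦ ψ (g h)` is again an
eigenfunction of the sphere means, and `finAvg Rep ψ` is a linear combination of these translates
(`meanEig_add_863`, `meanEig_smul_863` of helper863, asset `continuous_sphere314` of helper314).
OFF-MAIN.
-/

set_option autoImplicit false

open AutomorphicForm IsDedekindDomain NumberField MeasureTheory

noncomputable section

namespace Fermat.Agent.LT.T7.H984

open Fermat.Agent.LT Fermat.Agent.LT.H556 Fermat.Agent.LT.H556.A0 Fermat.Agent.LT.T7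
open Fermat.Agent.LT.T7.H193

variable {K : Type} [Field K] [NumberField K]

/-- A product of two elements which are trivial at the infinite place `w` is trivial at `w`. -/
theorem trivAtInf_mul984 {w : InfinitePlace K} {a b : G K} (ha : TrivAtInf w a)
    (hb : TrivAtInf w b) : TrivAtInf w (a * b) := by
  intro i j
  rw [Units.val_mul, T2.H314.mul_inf314]
  have h1 : ∀ p q : Fin 2, ((a : Matrix (Fin 2) (Fin 2) (Adl K)) p q).1 w
      = (1 : Matrix (Fin 2) (Fin 2) w.Completion) p q := ha
  have h2 : ∀ p q : Fin 2, ((b : Matrix (Fin 2) (Fin 2) (Adl K)) p q).1 w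
      = (1 : Matrix (Fin 2) (Fin 2) w.Completion) p q := hb
  simp only [h1, h2, Matrix.one_apply]
  fin_cases i <;> fin_cases j <;> simp

/-- An element supported at an infinite place commutes with an element which is trivial at every
infinite place. -/
theorem commute_inf_triv984 {w : InfinitePlace K} {y h : G K} (hy : IsLocalAtInf w y)
    (hh : ∀ w' : InfinitePlace K, TrivAtInf w' h) : y * h = h * y := by
  apply Units.ext
  rw [Units.val_mul, Units.val_mul]
  ext i j : 2
  apply T2.H314.adl_ext314
  · intro w'
    rw [T2.H314.mul_inf314, T2.H314.mul_inf314]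
    have h1 : ∀ a b : Fin 2, ((h : Matrix (Fin 2) (Fin 2) (Adl K)) a b).1 w'
        = (1 : Matrix (Fin 2) (Fin 2) w'.Completion) a b := hh w'
    simp only [h1, Matrix.one_apply, mul_ite, mul_one, mul_zero, ite_mul, one_mul, zero_mul,
      Finset.sum_ite_eq, Finset.sum_ite_eq', Finset.mem_univ, if_true]
  · intro v'
    rw [T2.H314.mul_fin314, T2.H314.mul_fin314]
    have h1 : ∀ a b : Fin 2, ((y : Matrix (Fin 2) (Fin 2) (Adl K)) a b).2 v'
        = (1 : Matrix (Fin 2) (Fin 2) (v'.adicCompletion K)) a b := fun a b =>
      congrFun (congrFun (hy.2 v') a) b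
    simp only [h1, Matrix.one_apply, mul_ite, mul_one, mul_zero, ite_mul, one_mul, zero_mul,
      Finset.sum_ite_eq, Finset.sum_ite_eq', Finset.mem_univ, if_true]

/-- The members of a system `Rep` are trivial at every infinite place. -/
theorem rep_trivAtInf984 {𝔑 𝔑₀ : Ideal (𝓞 K)} {l : ℕ} {o : ℕ → HeightOneSpectrum (𝓞 K)}
    {Rep : Finset (G K)} (hR : IsFinData 𝔑 𝔑₀ l o Rep) {h : G K} (hh : h ∈ Rep)
    (w : InfinitePlace K) : TrivAtInf w h := by
  obtain ⟨i, u, hi, hu, rfl⟩ := hR.mem h hh
  exact trivAtInf_mul984 (hi.1 w) (hu.1 w)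

/-- The right translate by an element which is trivial at infinity of an eigenfunction of the
sphere means is an eigenfunction of the sphere means. -/
theorem meanEig_translate984 {ψ : G K → ℂ} {w : InfinitePlace K} {m : ℝ → ℂ}
    (hψ : MeanEig ψ w m) {h : G K} (hh : ∀ w' : InfinitePlace K, TrivAtInf w' h) :
    MeanEig (fun g => ψ (g * h)) w m := by
  intro d hd Y hY g
  have key := hψ d hd Y hY (g * h)
  have e : ∀ α β : ℝ, ψ (g * Y α β * h) = ψ (g * h * Y α β) := by
    intro α β
    rw [mul_assoc g, commute_inf_triv984 (hY α β).1 hh, ← mul_assoc]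
  simp only [e]
  exact key

theorem meanEig_zero984 (w : InfinitePlace K) (m : ℝ → ℂ) :
    MeanEig (0 : G K → ℂ) w m := by
  intro d _ Y _ g
  simp

/-- Finite sums of continuous eigenfunctions of the sphere means. -/
theorem meanEig_sum984 {ι : Type} (s : Finset ι) (f : ι → G K → ℂ) {w : InfinitePlace K}
    {m : ℝ → ℂ} (hc : ∀ i ∈ s, Continuous (f i)) (hm : ∀ i ∈ s, MeanEig (f i) w m) :
    MeanEig (∑ i ∈ s, f i) w m := by
  classical
  induction s using Finset.induction_on with
  | empty =>
    rw [Finset.sum_empty]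
    exact meanEig_zero984 w m
  | insert a s ha ih =>
    rw [Finset.sum_insert ha]
    have hcs : Continuous (∑ i ∈ s, f i) := by
      have h := continuous_finsetSum s fun i hi => hc i (Finset.mem_insert_of_mem hi)
      have e : (∑ i ∈ s, f i) = fun a => ∑ i ∈ s, f i a := by
        funext a
        exact Finset.sum_apply a s f
      rw [e]
      exact h
    exact H863.meanEig_add_863 (hc a (Finset.mem_insert_self a s)) hcs
      (hm a (Finset.mem_insert_self a s))
      (ih (fun i hi => hc i (Finset.mem_insert_of_mem hi))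
        (fun i hi => hm i (Finset.mem_insert_of_mem hi)))

/-- **WB.B3 = FIN-AVG-MEAN.** -/
theorem finAvgMeanC984 (K : Type) [Field K] [NumberField K] : WB776.FinAvgMeanC776 K := by
  intro 𝔑 𝔑₀ l o Rep hR ψ w m hc hψ
  have h1 : MeanEig (∑ h ∈ Rep, fun g : G K => ψ (g * h)) w m :=
    meanEig_sum984 Rep (fun h g => ψ (g * h))
      (fun h _ => hc.comp (continuous_id.mul continuous_const))
      (fun h hh => meanEig_translate984 hψ (fun w' => rep_trivAtInf984 hR hh w'))
  have h2 := H863.meanEig_smul_863 (((Rep.card : ℂ))⁻¹) h1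
  have e : finAvg Rep ψ = ((Rep.card : ℂ))⁻¹ • ∑ h ∈ Rep, fun g : G K => ψ (g * h) := by
    funext g
    simp only [finAvg, Pi.smul_apply, Finset.sum_apply, smul_eq_mul]
  rw [e]
  exact h2

end Fermat.Agent.LT.T7.H984
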